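import Fermat.Agent.S19.A.Gen
import Fermat.Agent.GR.I.CharTheoryMk
import Fermat.Agent.GR.C.MainQbar
import Fermat.Agent.GR.B.MerLevel
import Fermat.Agent.GR.E.BR8

/-!
# S19-A : a Kummer function of level `N` which is an `n`-th power at level `N'` (`N ∣ N'`) is an `n`-th power at level `N`

No condition on `n` and on the degree (`GR.E.kummerEquiv_descent` needs the degree prime to `n`).
-/

set_option autoImplicit false

open CongruenceSubgroup ModularCurve
open scoped MatrixGroups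

namespace Fermat.Agent.S19

open Fermat.Agent.GR

theorem Gamma0_le_of_dvd {N N' : ℕ} (h : N ∣ N') : Gamma0 N' ≤ Gamma0 N := by
  intro γ hγ
  rw [Gamma0_mem, ZMod.intCast_zmod_eq_zero_iff_dvd] at hγ ⊢
  exact dvd_trans (by exact_mod_cast h) hγ

/-- restriction of characters from `Γ₀(N)` to `Γ₀(N')`. -/
def resChar {N N' : ℕ} (h : N ∣ N') {B : Type*} [AddCommGroup B] (φ : Additive (Gamma0 N) →+ B) :
    Additive (Gamma0 N') →+ B :=
  φ.comp (MonoidHom.toAdditive (Subgroup.inclusion (Gamma0_le_of_dvd h)))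

theorem resChar_apply {N N' : ℕ} (h : N ∣ N') {B : Type*} [AddCommGroup B]
    (φ : Additive (Gamma0 N) →+ B) (γ : Gamma0 N') :
    resChar h φ (Additive.ofMul γ) =
      φ (Additive.ofMul (⟨(γ : SL(2, ℤ)), Gamma0_le_of_dvd h γ.2⟩ : Gamma0 N)) := rfl

/-- [`IsModFun N c → IsModFun N' c` by `GR.B.mem_MerInf_of_dvd`; `HasRoot` restricts; `KummerEquiv N → KummerEquiv N'` by
`GR.E.BR8_FF_le`.] -/
theorem hasChar_resChar {N N' : ℕ} [NeZero N'] (h : N ∣ N') {n : ℕ} [NeZero n] {u : LaurentSeries ℂ}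
    {φ : Additive (Gamma0 N) →+ ZMod n} (hu : A.HasChar N n u φ) :
    A.HasChar N' n u (resChar h φ) := by
  obtain ⟨c, w, f, hroot, hexp, z, hz, hz0, hfu⟩ := hu
  refine ⟨c, w, f, ⟨⟨hroot.modFun.1, fun γ hγ τ => hroot.modFun.2.1 γ (Gamma0_le_of_dvd h hγ) τ,
    fun γ => GR.B.mem_MerInf_of_dvd h (hroot.modFun.2.2 γ)⟩, hroot.ne_zero, hroot.mdiff,
    hroot.pow_eq, fun γ τ => ?_⟩, hexp, z, GR.E.BR8_FF_le ℂ h hz, hz0, hfu⟩
  rw [resChar_apply]
  exact hroot.char ⟨(γ : SL(2, ℤ)), Gamma0_le_of_dvd h γ.2⟩ τ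

/-- [`T = GR.I.charTheory`. `(T N).exists_char`: `φ`, `Kills φ`, `HasChar N n u φ`. `hasChar_resChar`: `HasChar N' n u (res φ)`.
`B.HasChar.one` + `(T N').congr`: `HasChar N' n u 0`. `(T N').unique`: `res φ = 0`. `eq_zero_of_kills`: `φ = 0`. `(T N).zero`.] -/
theorem kummerEquiv_one_descent_complex {N N' : ℕ} [NeZero N] [NeZero N'] (h : N ∣ N') {n : ℕ}
    [NeZero n] {u : LaurentSeries ℂ} (hu : IsKummer (N := N) n u) (h1 : KummerEquiv N' n 1 u) :
    KummerEquiv N n 1 u := by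
  obtain ⟨φ, hφk, hφ⟩ := (GR.I.charTheory N).exists_char n u hu
  have h2 : A.HasChar N' n u (resChar h φ) := hasChar_resChar h hφ
  have h3 : A.HasChar N' n u 0 := (GR.I.charTheory N').congr n 1 u 0 (B.HasChar.one n) h1
  have h4 : resChar h φ = 0 := (GR.I.charTheory N').unique n u _ _ h2 h3
  have h5 : φ = 0 := by
    refine eq_zero_of_kills h φ hφk fun γ hγ => ?_
    have := DFunLike.congr_fun h4 (Additive.ofMul (⟨(γ : SL(2, ℤ)), hγ⟩ : Gamma0 N'))
    rw [resChar_apply] at this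
    exact this
  rw [h5] at hφ
  exact (GR.I.charTheory N).zero n u hφ

/-- [`ι : Qb →+* ℂ` (`IsAlgClosed.lift`), `GR.C.isKummer_iota_iff`, `GR.C.kummerEquiv_iota_iff` at the levels `N` and `N'`
(as in `S17/Fin/Main.lean`), `coeffMap ι 1 = 1`.] -/
theorem kummerEquiv_one_descent {N N' : ℕ} [NeZero N] [NeZero N'] (h : N ∣ N') {n : ℕ}
    [NeZero n] {u : LaurentSeries (AlgebraicClosure ℚ)} (hu : IsKummer (N := N) n u)
    (h1 : KummerEquiv N' n 1 u) : KummerEquiv N n 1 u := by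
  let ι : AlgebraicClosure ℚ →+* ℂ :=
    (IsAlgClosed.lift (R := ℚ) (S := AlgebraicClosure ℚ) (M := ℂ) :
      AlgebraicClosure ℚ →ₐ[ℚ] ℂ).toRingHom
  have hn : 0 < n := NeZero.pos n
  have e1 : coeffMap ι (1 : LaurentSeries (AlgebraicClosure ℚ)) = 1 := map_one _
  have h2 : KummerEquiv N' n 1 (coeffMap ι u) := by
    rw [← e1]
    exact (GR.C.kummerEquiv_iota_iff ι hn).2 h1
  have h3 := kummerEquiv_one_descent_complex h ((GR.C.isKummer_iota_iff ι).2 hu) h2
  rw [← e1] at h3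
  exact (GR.C.kummerEquiv_iota_iff ι hn).1 h3

end Fermat.Agent.S19
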