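import Fermat.Agent.S19.A.Dict
import Fermat.Agent.S19.A.LevelInj
import Fermat.Agent.GR.E.BR8b

/-!
# S19-A : the pull back `J₀(N)[n] → J₀(N')[n]` (`N ∣ N'`), through Kummer functions
-/

set_option autoImplicit false
set_option synthInstance.maxHeartbeats 400000

noncomputable section

namespace Fermat.Agent.S19

open ModularCurve AlgebraicCurve Fermat.Agent.GR

variable {N N' : ℕ} [NeZero N] [NeZero N'] {n : ℕ} [NeZero n]

/-- a Kummer function of level `N` is a Kummer function of level `N'`. -/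
theorem exists_up (hNN' : N ∣ N') (hfin : (FF Qb N).relfinrank (FF Qb N') ≠ 0)
    {x : JZero N} {f : LaurentSeries Qb} (h : IsKumOf N n x f) :
    ∃ x' : JZero N', IsKumOf N' n x' f :=
  exists_isKumOf_of_isKummer (NeZero.pos n) (E.isKummer_of_dvd N N' hNN' hfin n f h.isKummer)

theorem kummerEquiv_up (hNN' : N ∣ N') {f f' : LaurentSeries Qb} (h : KummerEquiv N n f f') :
    KummerEquiv N' n f f' := by
  obtain ⟨z, hz, hz0, h⟩ := h
  exact ⟨z, E.BR8_FF_le Qb hNN' hz, hz0, h⟩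

/-- **(UP)** the pull back of torsion classes: additive, equivariant, injective, and compatible with Kummer functions. -/
theorem exists_upMap (hNN' : N ∣ N') (hfin : (FF Qb N).relfinrank (FF Qb N') ≠ 0) :
    ∃ π : Tors N (n : ℤ) → Tors N' (n : ℤ),
      (∀ (x : Tors N (n : ℤ)) f, IsKumOf N n (x : JZero N) f → IsKumOf N' n (π x : JZero N') f) ∧
      (∀ x y, π (x + y) = π x + π y) ∧ (∀ (σ : GQ) x, π (σ • x) = σ • π x) ∧
      ∀ x, π x = 0 → x = 0 := by
  have hn := NeZero.pos n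
  have key : ∀ x : Tors N (n : ℤ), ∃ x' : Tors N' (n : ℤ),
      ∀ f, IsKumOf N n (x : JZero N) f → IsKumOf N' n (x' : JZero N') f := by
    intro x
    obtain ⟨f₀, hf₀⟩ := exists_isKumOf (N := N) x.nsmul_eq_zero
    obtain ⟨x', hx'⟩ := exists_up hNN' hfin hf₀
    refine ⟨Tors.mk x' hx'.nsmul_eq_zero, fun f hf => ?_⟩
    exact hx'.congr (kummerEquiv_up hNN' (hf₀.kummerEquiv hn hf))
  choose π hπ using key
  refine ⟨π, hπ, fun x y => ?_, fun σ x => ?_, fun x hx => ?_⟩
  · obtain ⟨f, hf⟩ := exists_isKumOf (N := N) x.nsmul_eq_zero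
    obtain ⟨g, hg⟩ := exists_isKumOf (N := N) y.nsmul_eq_zero
    exact Subtype.ext (IsKumOf.unique hn (hπ (x + y) _ (hf.mul hg)) ((hπ x f hf).mul (hπ y g hg))
      (C.kummerEquiv_refl N' n _))
  · obtain ⟨f, hf⟩ := exists_isKumOf (N := N) x.nsmul_eq_zero
    exact Subtype.ext (IsKumOf.unique hn (hπ (σ • x) _ (hf.gal σ)) ((hπ x f hf).gal σ)
      (C.kummerEquiv_refl N' n _))
  · obtain ⟨f, hf⟩ := exists_isKumOf (N := N) x.nsmul_eq_zero
    have h1 := hπ x f hf
    rw [hx] at h1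
    have h2 : KummerEquiv N' n 1 f := IsKumOf.kummerEquiv hn isKumOf_one h1
    exact Subtype.ext (hf.eq_zero hn (kummerEquiv_one_descent hNN' hf.isKummer h2))

end Fermat.Agent.S19
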