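import Fermat.Agent.S19.A.Defs
import Fermat.Agent.S17.Fin.Main
import Fermat.Agent.S17.WMW.OpenStab

/-!
# S19-A : the torsion of `J₀(N)` is finite and the Galois action factors through a number field
-/

set_option autoImplicit false
set_option synthInstance.maxHeartbeats 400000

noncomputable section

namespace Fermat.Agent.S19

open ModularCurve AlgebraicCurve

/-- [`S17.finite_torsion_bar N m`: `Pic0.torsion K F m` is `(torsionBy ℤ _ (m : ℤ)).toAddSubgroup`, same carrier.] -/
theorem finite_tors (N : ℕ) [NeZero N] (m : ℕ) [NeZero m] : Finite (Tors N (m : ℤ)) :=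
  S17.finite_torsion_bar N m

theorem Tors_exists_level_finset (N : ℕ) [NeZero N] (s : Finset (JZero N)) :
    ∃ L : IntermediateField ℚ Qb, FiniteDimensional ℚ L ∧
      ∀ τ ∈ L.fixingSubgroup, ∀ y ∈ s, τ • y = y := by
  classical
  induction s using Finset.induction_on with
  | empty => exact ⟨⊥, inferInstance, fun _ _ f hf => absurd hf (Finset.notMem_empty f)⟩
  | insert a s _ ih =>
    obtain ⟨L₁, h₁, hs⟩ := ih
    obtain ⟨L₂, h₂, ha⟩ := S17.WMW.exists_level_class N a
    refine ⟨L₁ ⊔ L₂, IntermediateField.finiteDimensional_sup _ _, fun τ hτ f hf => ?_⟩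
    rcases Finset.mem_insert.1 hf with rfl | hf
    · exact ha τ (S17.WMW.OpenStab_mem_right hτ)
    · exact hs τ (S17.WMW.OpenStab_mem_left hτ) f hf

/-- [`S17.WMW.exists_level_class` for each of the finitely many elements; compositum
(`IntermediateField.finiteDimensional_sup`, induction over a `Finset`, as in
`S17.WMW.OpenStab_exists_level_finset`).] -/
theorem finLevel_tors (N : ℕ) [NeZero N] (m : ℕ) [NeZero m] : FinLevel (Tors N (m : ℤ)) := by
  classical
  have := finite_tors N m
  have := Fintype.ofFinite (Tors N (m : ℤ))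
  obtain ⟨L, hL, h⟩ := Tors_exists_level_finset N
    ((Finset.univ : Finset (Tors N (m : ℤ))).image (Subtype.val : Tors N (m : ℤ) → JZero N))
  refine ⟨L, hL, fun σ hσ x => Subtype.ext ?_⟩
  rw [coe_tors_smul]
  exact h σ hσ _ (Finset.mem_image_of_mem Subtype.val (Finset.mem_univ x))

end Fermat.Agent.S19
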