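import Fermat.Agent.S19.A.Can
import Fermat.Agent.S19.A.Tors
import Fermat.Agent.S19.I.Conc

/-!
# S19-A : THEOREM GEO: `y ↦ e_n(y, x')` lies in `MD A (J₀(N')[n])` at a level `N'` which has a model
-/

set_option autoImplicit false
set_option synthInstance.maxHeartbeats 400000

noncomputable section

namespace Fermat.Agent.S19

open ModularCurve AlgebraicCurve Fermat.Agent.GR Fermat.Agent.S17.FF

/-- the abstract form.
[`T := ⋃_y supp (Dv y)` (`Finset.univ.biUnion`). `(w₀, E₀)` a representative of `x'` (`W.exists_rep hx' ∅`); `hM E₀ T` gives `h`;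
`(w, E) := (w₀ h ^ n, E₀ + div h)` represents `x'` (`W.IsRep.add`, `isRep_pow`, `add_zero`). `DisjD (Dv y) E`: a common point `P` would
have `r P ≠ r P`. `W.weil_eq`: `weil n (c y) x' = evalD (u y) E / evalD w (Dv y)` (`W.ePair`). Apply `hI`:
`h1`: if `Q.ord (u y) ≠ 0` then `Q ∈ supp (Dv y) ⊆ T` (`W.IsKum.ord_eq`); `h2`: if `Q.ord w ≠ 0` then `Q ∈ supp E`.] -/
theorem geo_abstract {F : Type} [Field F] [Algebra Qb F] [IsFF Qb F] (A : ValuationSubring Qb)
    (φ : GQ →* SemilinearAut Qb F) {S : Type} (r : Place Qb F → S) (hM : I.Moves r)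
    (hI : I.Integral A φ r) {n : ℕ} (hn : 0 < n) {Y : Type} [Fintype Y] [MulAction GQ Y]
    (hY : FinLevel Y) (c : Y → Pic0 Qb F) (u : Y → F) (Dv : Y → Divisor Qb F)
    (hrep : ∀ y, W.IsRep n (c y) (u y) (Dv y)) (hu : ∀ (σ : GQ) y, u (σ • y) = φ σ • u y)
    (hDv : ∀ (σ : GQ) y, Dv (σ • y) = φ σ • Dv y) {x' : Pic0 Qb F} (hx' : n • x' = 0) :
    (fun y => W.weil n (c y) x') ∈ MD A Y := by
  classical
  have hn0 : n ≠ 0 := hn.ne'
  set T : Finset (Place Qb F) := Finset.univ.biUnion fun y => (Dv y).support with hT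
  have hTmem : ∀ y, ∀ P ∈ (Dv y).support, P ∈ T := fun y P hP =>
    Finset.mem_biUnion.2 ⟨y, Finset.mem_univ y, hP⟩
  obtain ⟨w₀, E₀, hrep₀, -⟩ := W.exists_rep hx' ∅
  obtain ⟨h, hh0, hh⟩ := hM E₀ T
  have hrepE : W.IsRep n x' (w₀ * h ^ n) (E₀ + divf (K := Qb) h) := by
    have := hrep₀.add (isRep_pow (K := Qb) n hh0)
    rwa [add_zero] at this
  set w : F := w₀ * h ^ n with hw
  set E : Divisor Qb F := E₀ + divf (K := Qb) h with hE
  have hdisj : ∀ y, W.DisjD (Dv y) E := by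
    intro y P
    by_cases h1 : Dv y P = 0
    · exact Or.inl h1
    · right
      by_contra h2
      exact hh P (Finsupp.mem_support_iff.2 h2) P (hTmem y P (Finsupp.mem_support_iff.2 h1)) rfl
  have heq : (fun y => W.weil n (c y) x') = fun y => W.evalD (u y) E / W.evalD w (Dv y) := by
    funext y
    rw [W.weil_eq hn0 (hrep y) hrepE (hdisj y)]
    rfl
  rw [heq]
  refine hI Y hY u Dv (fun y => (hrep y).kum.ne_zero) (fun σ _ y => hu σ y) (fun σ _ y => hDv σ y)
    (fun y => (hrep y).degree_eq_zero) w hrepE.kum.ne_zero E hrepE.degree_eq_zero ?_ ?_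
  · intro y P hP Q hQ
    by_contra h1
    have h2 : Dv y Q ≠ 0 := by
      intro h0
      apply h1
      rw [(hrep y).kum.ord_eq Q, h0, mul_zero]
    exact hh P hP Q (hTmem y Q (Finsupp.mem_support_iff.2 h2)) hQ.symm
  · intro y P hP Q hQ
    by_contra h1
    have h2 : E Q ≠ 0 := by
      intro h0
      apply h1
      rw [hrepE.kum.ord_eq Q, h0, mul_zero]
    exact hh Q (Finsupp.mem_support_iff.2 h2) P (hTmem y P hP) hQ

/-- **THEOREM GEO.** -/
theorem geo (A : ValuationSubring Qb) (ℓ : ℕ) [Fact ℓ.Prime] (hA : A.LiesOverPrime ℓ)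
    (N' : ℕ) [NeZero N'] (H : LaurentSeries ℤ) (hM : E.HasModel A N' H) (n : ℕ) [NeZero n]
    {x' : JZero N'} (hx' : n • x' = 0) :
    (fun y : Tors N' (n : ℤ) => W.weil n (y : JZero N') x') ∈ MD A (Tors N' (n : ℤ)) := by
  classical
  have := finite_tors N' n
  letI : Fintype (Tors N' (n : ℤ)) := Fintype.ofFinite _
  obtain ⟨S, r, h1, h2⟩ := I.exists_red' A ℓ hA N' H hM (FB N') (S18.bar_eq_FF N')
    (arithmeticGalois (modularFunctionFieldFull N')) (fun σ x => rfl)
  obtain ⟨u, Dv, hrep, hu, hDv⟩ := exists_equivariant_reps N' (NeZero.pos n)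
  exact geo_abstract A _ r h1 h2 (NeZero.pos n) (finLevel_tors N' n) (fun y => (y : JZero N')) u Dv
    hrep hu hDv hx'

end Fermat.Agent.S19
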