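import Fermat.Agent.S19.A.Defs
import Fermat.Agent.S19.ND.Weil

/-!
# S19-A : non-degeneracy of the Weil pairing on `J₀(N)[n]` (in the second variable)
-/

set_option autoImplicit false
set_option synthInstance.maxHeartbeats 400000

noncomputable section

namespace Fermat.Agent.S19

open ModularCurve AlgebraicCurve

/-- **(ND)** on classes. -/
theorem weil_nondeg (N : ℕ) [NeZero N] {n : ℕ} (hn : 0 < n) {x : JZero N} (hx : n • x = 0)
    (h : ∀ y : JZero N, n • y = 0 → W.weil n y x = 1) : x = 0 := by
  refine ND.weil_nondeg N hn.ne' x hx fun y hy => ?_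
  rw [W.weil_swap hn.ne' y x, h y hy, inv_one]

end Fermat.Agent.S19
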