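import Fermat.Agent.S19.A.Up
import Fermat.Agent.S19.A.ND
import Fermat.Agent.S19.A.Geo
import Fermat.Agent.S19.H.Main
import Fermat.Agent.GR.D.Top.Main
import Fermat.Agent.Lib.Frobenius

/-!
# S19-A : `J₀(N)[n]` has a finite flat model over `ℤ_(ℓ)` (`ℓ ∤ N`, any `n > 0`)
-/

set_option autoImplicit false
set_option synthInstance.maxHeartbeats 400000

noncomputable section

namespace Fermat.Agent.S19

open ModularCurve AlgebraicCurve Fermat.Agent.GR

/-- the pairing datum of Theorem H for `J₀(N)[n]`, for an arbitrary valuation subring `A` over `ℓ`. -/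
theorem exists_pairing_tors (A : ValuationSubring Qb) (N : ℕ) [NeZero N] (ℓ : ℕ)
    [hℓ : Fact ℓ.Prime] (hA : A.LiesOverPrime ℓ) (hℓN : ¬ ℓ ∣ N) (n : ℕ) [NeZero n] :
    ∃ (N' : ℕ) (_ : NeZero N') (e : Tors N (n : ℤ) → Tors N' (n : ℤ) → Qb),
      IsPairing e ∧ ∀ x, e x ∈ MD A (Tors N' (n : ℤ)) := by
  obtain ⟨N', H, hN'0, hNN', ⟨k, hk⟩, hM⟩ := D.Top.modelExists N ℓ hℓ.out hℓN A hA
  have hN' : NeZero N' := ⟨hN'0⟩
  have hfin : (FF Qb N).relfinrank (FF Qb N') ≠ 0 := by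
    rw [hk]; exact pow_ne_zero _ hℓ.out.ne_zero
  have hn : n ≠ 0 := NeZero.ne n
  obtain ⟨π, -, hadd, hequiv, hinj⟩ := exists_upMap (n := n) hNN' hfin
  refine ⟨N', hN', fun x y => W.weil n (y : JZero N') (π x : JZero N'), ⟨?_, ?_, ?_, ?_, ?_⟩, ?_⟩
  · intro x x' w
    rw [hadd]
    exact W.weil_add_right hn _ (π x).nsmul_eq_zero (π x').nsmul_eq_zero
  · intro x w w'
    exact W.weil_add_left hn w.nsmul_eq_zero w'.nsmul_eq_zero _
  · intro x w
    exact W.weil_ne_zero hn _ _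
  · intro σ x w
    rw [hequiv]
    exact W.weil_smul hn (S17.WMW.gal N' σ) _ _
  · intro x hx
    apply hinj
    apply Subtype.ext
    exact weil_nondeg N' (NeZero.pos n) (π x).nsmul_eq_zero
      (fun y hy => hx (Tors.mk y hy))
  · intro x
    exact geo A ℓ hA N' H hM n (π x).nsmul_eq_zero

theorem flatModel_tors (N : ℕ) [NeZero N] (ℓ : ℕ) [hℓ : Fact ℓ.Prime] (hℓN : ¬ ℓ ∣ N) (n : ℕ)
    [NeZero n] : FlatModel ℓ (Tors N (n : ℤ)) (fun σ x => σ • x) := by
  obtain ⟨A, hA⟩ := Lib.Frobenius.exists_liesOverPrime (K := Qb) ℓ hℓ.out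
  obtain ⟨N', _, e, he, hCH⟩ := exists_pairing_tors A N ℓ hA hℓN n
  have := finite_tors N n
  have := finite_tors N' n
  exact flatModel_of_pairing A hA (finLevel_tors N n) (finLevel_tors N' n) e he hCH

end Fermat.Agent.S19
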