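import Fermat.Agent.S19.A.Dict
import Fermat.Agent.GR.C.FixedRep

/-!
# S19-A : an exactly equivariant family of Kummer functions
-/

set_option autoImplicit false
set_option synthInstance.maxHeartbeats 400000

noncomputable section

namespace Fermat.Agent.S19

open ModularCurve AlgebraicCurve Fermat.Agent.GR

/-- equivariant choice on a `G`-set from stabiliser-invariant local choices. -/
theorem Can_equivariant_choice {G X Y : Type*} [Group G] [MulAction G X] (act : G → Y → Y)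
    (hmul : ∀ (g g' : G) (y : Y), act (g * g') y = act g (act g' y))
    (P : X → Y → Prop) (hP : ∀ (g : G) (x : X) (y : Y), P x y → P (g • x) (act g y))
    (hex : ∀ x : X, ∃ y : Y, P x y ∧ ∀ g : G, g • x = x → act g y = y) :
    ∃ u : X → Y, (∀ x, P x (u x)) ∧ ∀ (g : G) (x : X), u (g • x) = act g (u x) := by
  choose w hw hfix using hex
  let r : X → X := fun x => (Quotient.mk (MulAction.orbitRel G X) x).out
  have hr : ∀ x : X, ∃ τ : G, τ • r x = x := by
    intro x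
    have h1 : (MulAction.orbitRel G X) (r x) x := Quotient.mk_out (s := MulAction.orbitRel G X) x
    rw [MulAction.orbitRel_apply] at h1
    obtain ⟨τ, hτ⟩ := h1
    refine ⟨τ⁻¹, ?_⟩
    rw [inv_smul_eq_iff]
    exact hτ.symm
  choose τ hτ using hr
  have hrg : ∀ (g : G) (x : X), r (g • x) = r x := by
    intro g x
    have h1 : Quotient.mk (MulAction.orbitRel G X) (g • x) =
        Quotient.mk (MulAction.orbitRel G X) x := by
      apply Quotient.sound
      show (MulAction.orbitRel G X) (g • x) x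
      rw [MulAction.orbitRel_apply]
      exact ⟨g, rfl⟩
    show (Quotient.mk (MulAction.orbitRel G X) (g • x)).out = _
    rw [h1]
  refine ⟨fun x => act (τ x) (w (r x)), fun x => ?_, fun g x => ?_⟩
  · have := hP (τ x) (r x) (w (r x)) (hw (r x))
    rwa [hτ] at this
  · show act (τ (g • x)) (w (r (g • x))) = act g (act (τ x) (w (r x)))
    have h1 : ((g * τ x)⁻¹ * τ (g • x)) • r x = r x := by
      have h2 := hτ (g • x)
      rw [hrg] at h2
      rw [mul_smul, h2, inv_smul_eq_iff, mul_smul, hτ]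
    have h3 := hfix (r x) _ h1
    rw [hrg, ← hmul]
    conv_lhs => rw [show τ (g • x) = (g * τ x) * ((g * τ x)⁻¹ * τ (g • x)) by group]
    rw [hmul (g * τ x), h3]

theorem Can_gal_mul (σ τ : GQ) (f : LaurentSeries Qb) :
    GR.gal (σ * τ) f = GR.gal σ (GR.gal τ f) := by
  ext k
  rfl

/-- **(EQ)** there is a family of Kummer functions `y ↦ u y` with `u (σ y) = σ (u y)` (equality of series) for ALL `σ ∈ GQ`.

Route 1 (orbits). Choose a representative `y₀` in every `GQ`-orbit (`MulAction.orbitRel.Quotient`, `Quotient.out`), `f₀` with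
`IsKumOf y₀ f₀` (`exists_isKumOf`), `w₀` from `GR.C.exists_fixed_rep_Qbar` applied to `f₀` (`mem_FB_iff`): `w₀ ~ f₀` and `σ w₀ = w₀` as
soon as `f₀ ~ σ f₀`, in particular for `σ y₀ = y₀` (`IsKumOf.gal` + `IsKumOf.kummerEquiv`). For `y = τ y₀` (choose `τ`) put
`u y = τ w₀`. Then `u (σ y) = τ' w₀` with `τ' y₀ = σ τ y₀`, so `(σ τ)⁻¹ τ'` fixes `y₀`, hence `w₀`.
(`GR.gal σ = coeffMap σ`, `coeffMap_coeffMap`.)
Route 2. use the canonical representative directly (`GR/C/CanonDefs.lean`: `IsCan`, `exists_isCan`, `IsCan.ffAut`, `IsCan.congr`,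
`IsCan.unique`, exactly as in the proof of `GR.C.exists_fixed_rep`). -/
theorem exists_equivariant_family (N : ℕ) [NeZero N] {n : ℕ} (hn : 0 < n) :
    ∃ u : Tors N (n : ℤ) → LaurentSeries Qb,
      (∀ y : Tors N (n : ℤ), IsKumOf N n (y : JZero N) (u y)) ∧
      ∀ (σ : GQ) (y : Tors N (n : ℤ)), u (σ • y) = GR.gal σ (u y) := by
  refine Can_equivariant_choice (G := GQ) (X := Tors N (n : ℤ)) (fun σ f => GR.gal σ f)
    Can_gal_mul (fun y f => IsKumOf N n (y : JZero N) f) (fun σ y f h => h.gal σ) fun y => ?_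
  obtain ⟨f₀, hf₀⟩ := exists_isKumOf (Tors.nsmul_eq_zero y)
  obtain ⟨w, hw, -, hfix⟩ := GR.C.exists_fixed_rep_Qbar hn (mem_FB_iff.1 hf₀.mem) hf₀.ne_zero
  refine ⟨w, hf₀.congr hw, fun σ hσ => hfix σ ?_⟩
  have h1 := hf₀.gal σ
  rw [← coe_tors_smul, hσ] at h1
  exact IsKumOf.kummerEquiv hn hf₀ h1

/-- the same with functions and divisors.
[`u y := ⟨u₀ y, _⟩`, `Dv y` from `IsKumOf`; `Dv (σ y) = σ Dv y` by `W.IsKum.divisor_unique` (`W.IsKum.smul`).] -/
theorem exists_equivariant_reps (N : ℕ) [NeZero N] {n : ℕ} (hn : 0 < n) :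
    ∃ (u : Tors N (n : ℤ) → FB N) (Dv : Tors N (n : ℤ) → Divisor Qb (FB N)),
      (∀ y : Tors N (n : ℤ), W.IsRep n (y : JZero N) (u y) (Dv y)) ∧
      (∀ (σ : GQ) (y : Tors N (n : ℤ)), u (σ • y) = S17.WMW.gal N σ • u y) ∧
      ∀ (σ : GQ) (y : Tors N (n : ℤ)), Dv (σ • y) = S17.WMW.gal N σ • Dv y := by
  obtain ⟨u₀, hu₀, heq⟩ := exists_equivariant_family N hn
  have hD : ∀ y : Tors N (n : ℤ), ∃ D : Divisor Qb (FB N),
      W.IsRep n (y : JZero N) (⟨u₀ y, (hu₀ y).mem⟩ : FB N) D := fun y => (hu₀ y).2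
  choose Dv hDv using hD
  have hu : ∀ (σ : GQ) (y : Tors N (n : ℤ)),
      (⟨u₀ (σ • y), (hu₀ (σ • y)).mem⟩ : FB N) =
        S17.WMW.gal N σ • (⟨u₀ y, (hu₀ y).mem⟩ : FB N) := by
    intro σ y
    apply Subtype.ext
    rw [S17.WMW.coe_gal_smul]
    exact heq σ y
  refine ⟨fun y => ⟨u₀ y, (hu₀ y).mem⟩, Dv, hDv, hu, fun σ y => ?_⟩
  have h1 := (hDv (σ • y)).kum
  rw [hu] at h1
  exact h1.divisor_unique hn.ne' ((hDv y).kum.smul (S17.WMW.gal N σ))

end Fermat.Agent.S19
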