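import Fermat.Agent.S19.H.Defs
import Fermat.Agent.S19.W.Weil
import Fermat.Agent.S17.WMW.Setup
import Fermat.Agent.GR.Defs

/-!
# S19-A : definitions for the assembly

* `Tors N m` : the `m`-torsion of `J₀(N)(ℚ̄)` with its action of `GQ`.
* `IsKumOf N n y f` : the Laurent series `f` is a Kummer function of the class `y`: `y = [D]`, `div f = n D`.
-/

set_option autoImplicit false
set_option synthInstance.maxHeartbeats 400000

noncomputable section

namespace Fermat.Agent.S19

open ModularCurve AlgebraicCurve Fermat.Agent.GR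

/-- the function field of `X₀(N)` over `ℚ̄` (`= S17.WMW.FB N`). -/
abbrev FB (N : ℕ) : IntermediateField Qb (LaurentSeries Qb) := modularFunctionFieldBar N

instance isFF_FB (N : ℕ) [NeZero N] : S17.FF.IsFF Qb (FB N) := S17.WMW.isFF_bar N

/-- the `m`-torsion of `J₀(N)`. -/
abbrev Tors (N : ℕ) (m : ℤ) : Type := ↥(Submodule.torsionBy ℤ (JZero N) m)

theorem smul_mem_torsionBy {N : ℕ} {m : ℤ} (σ : GQ) {x : JZero N}
    (hx : x ∈ Submodule.torsionBy ℤ (JZero N) m) : σ • x ∈ Submodule.torsionBy ℤ (JZero N) m := by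
  rw [Submodule.mem_torsionBy_iff] at hx ⊢
  have h : σ • (m • x) = m • (σ • x) := (DistribSMul.toAddMonoidHom (JZero N) σ).map_zsmul m x
  rw [← h, hx, smul_zero]

instance torsMulAction (N : ℕ) (m : ℤ) : DistribMulAction GQ (Tors N m) where
  smul σ x := ⟨σ • (x : JZero N), smul_mem_torsionBy σ x.2⟩
  one_smul x := Subtype.ext (one_smul GQ (x : JZero N))
  mul_smul σ τ x := Subtype.ext (mul_smul σ τ (x : JZero N))
  smul_zero σ := Subtype.ext (smul_zero σ)
  smul_add σ x y := Subtype.ext (smul_add σ (x : JZero N) (y : JZero N))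

@[simp] theorem coe_tors_smul {N : ℕ} {m : ℤ} (σ : GQ) (x : Tors N m) :
    ((σ • x : Tors N m) : JZero N) = σ • (x : JZero N) := rfl

theorem Tors.nsmul_eq_zero {N n : ℕ} (x : Tors N (n : ℤ)) : n • (x : JZero N) = 0 := by
  have h := (Submodule.mem_torsionBy_iff _ _).1 x.2
  rwa [natCast_zsmul] at h

/-- the element of `Tors N n` attached to a class killed by `n`. -/
def Tors.mk {N n : ℕ} (x : JZero N) (hx : n • x = 0) : Tors N (n : ℤ) :=
  ⟨x, (Submodule.mem_torsionBy_iff _ _).2 (by rwa [natCast_zsmul])⟩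

@[simp] theorem Tors.coe_mk {N n : ℕ} (x : JZero N) (hx : n • x = 0) :
    ((Tors.mk x hx : Tors N (n : ℤ)) : JZero N) = x := rfl

/-- `f` is a Kummer function of the class `y`: `y = [D]` and `div f = n D`. -/
def IsKumOf (N : ℕ) [NeZero N] (n : ℕ) (y : JZero N) (f : LaurentSeries Qb) : Prop :=
  ∃ (hf : f ∈ FB N) (D : Divisor Qb (FB N)), W.IsRep n y (⟨f, hf⟩ : FB N) D

end Fermat.Agent.S19
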