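import Fermat.Agent.S19.A.Defs

/-!
# S19-A : dictionary between `n`-torsion classes and Kummer functions (Laurent series)
-/

set_option autoImplicit false
set_option synthInstance.maxHeartbeats 400000

noncomputable section

namespace Fermat.Agent.S19

open ModularCurve AlgebraicCurve Fermat.Agent.GR Fermat.Agent.S17.FF

variable {N : ℕ} [NeZero N] {n : ℕ}

theorem isKumOf_coe {y : JZero N} {u : FB N} {D : Divisor Qb (FB N)} (h : W.IsRep n y u D) :
    IsKumOf N n y (u : LaurentSeries Qb) := ⟨u.2, D, h⟩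

theorem exists_isKumOf {y : JZero N} (hy : n • y = 0) : ∃ f, IsKumOf N n y f := by
  obtain ⟨u, D, h, -⟩ := W.exists_rep hy ∅
  exact ⟨u, isKumOf_coe h⟩

theorem IsKumOf.nsmul_eq_zero {y : JZero N} {f : LaurentSeries Qb} (h : IsKumOf N n y f) :
    n • y = 0 := by
  obtain ⟨hf, D, h⟩ := h
  exact h.nsmul_eq_zero

theorem IsKumOf.ne_zero {y : JZero N} {f : LaurentSeries Qb} (h : IsKumOf N n y f) : f ≠ 0 := by
  obtain ⟨hf, D, h⟩ := h
  intro h0
  exact h.kum.ne_zero (Subtype.ext h0)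

theorem IsKumOf.mem {y : JZero N} {f : LaurentSeries Qb} (h : IsKumOf N n y f) : f ∈ FB N :=
  h.1

theorem IsKumOf.mul {y y' : JZero N} {f f' : LaurentSeries Qb} (h : IsKumOf N n y f)
    (h' : IsKumOf N n y' f') : IsKumOf N n (y + y') (f * f') := by
  obtain ⟨hf, D, h⟩ := h
  obtain ⟨hf', D', h'⟩ := h'
  have := isKumOf_coe (h.add h')
  rwa [MulMemClass.coe_mul] at this

theorem IsKumOf.gal {y : JZero N} {f : LaurentSeries Qb} (h : IsKumOf N n y f) (σ : GQ) :
    IsKumOf N n (σ • y) (GR.gal σ f) := by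
  obtain ⟨hf, D, h⟩ := h
  have := isKumOf_coe (h.smul (S17.WMW.gal N σ))
  rwa [S17.WMW.coe_gal_smul] at this

/-- `(z ^ n, div z)` represents `0`. -/
theorem isRep_pow {K F : Type*} [Field K] [Field F] [Algebra K F] [IsAlgClosed K] [CharZero K]
    [IsFF K F] (n : ℕ) {z : F} (hz : z ≠ 0) :
    W.IsRep n (0 : Pic0 K F) (z ^ n) (divf (K := K) z) := by
  obtain ⟨oo⟩ : Nonempty (Place K F) := RiemannCor_nonempty_place
  have h0 : divf (K := K) z ∈ Divisor.degZero (K := K) (F := F) :=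
    Divisor.mem_degZero.2 (degree_divf z)
  exact ⟨W.isKum_pow n hz, h0, by rw [mk_eq_cls oo ⟨_, h0⟩]; exact cls_divf oo z⟩

/-- membership in `FB N` and in `FF Qb N` are the same. -/
theorem mem_FB_iff {f : LaurentSeries Qb} : f ∈ FB N ↔ f ∈ FF Qb N := by
  rw [show FB N = FF Qb N from S18.bar_eq_FF N]

theorem IsKumOf.congr {y : JZero N} {f f' : LaurentSeries Qb} (h : IsKumOf N n y f)
    (h' : KummerEquiv N n f f') : IsKumOf N n y f' := by
  obtain ⟨hf, D, h⟩ := h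
  obtain ⟨z, hz, hz0, rfl⟩ := h'
  have hz' : z ∈ FB N := mem_FB_iff.2 hz
  have hz0' : (⟨z, hz'⟩ : FB N) ≠ 0 := fun h0 => hz0 (congrArg Subtype.val h0)
  have := h.add (isRep_pow (K := Qb) n hz0')
  rw [add_zero] at this
  have := isKumOf_coe this
  rwa [MulMemClass.coe_mul, SubmonoidClass.coe_pow] at this

/-- [`W.IsRep.exists_eq`: `f' = c f h ^ n`; `c` is an `n`-th power in `Qb`.] -/
theorem IsKumOf.kummerEquiv (hn : 0 < n) {y : JZero N} {f f' : LaurentSeries Qb}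
    (h : IsKumOf N n y f) (h' : IsKumOf N n y f') : KummerEquiv N n f f' := by
  obtain ⟨hf, D, h⟩ := h
  obtain ⟨hf', D', h'⟩ := h'
  obtain ⟨c, w, hc, hw, -, he⟩ := h.exists_eq h'
  obtain ⟨d, hd⟩ := IsAlgClosed.exists_pow_nat_eq c hn
  have hd0 : d ≠ 0 := by
    rintro rfl
    rw [zero_pow hn.ne'] at hd
    exact hc hd.symm
  have hz0 : algebraMap Qb (FB N) d * w ≠ 0 :=
    mul_ne_zero ((map_ne_zero _).2 hd0) hw
  refine ⟨((algebraMap Qb (FB N) d * w : FB N) : LaurentSeries Qb), mem_FB_iff.1 (Subtype.property _),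
    fun h0 => hz0 (Subtype.ext h0), ?_⟩
  have he' : (⟨f', hf'⟩ : FB N) = ⟨f, hf⟩ * (algebraMap Qb (FB N) d * w) ^ n := by
    rw [he, ← hd, map_pow, mul_pow]
    ring
  have := congrArg (Subtype.val) he'
  rwa [MulMemClass.coe_mul, SubmonoidClass.coe_pow] at this

/-- [`f' = f z ^ n`, so `n D' = n (D + div z)`, `D' = D + div z`.] -/
theorem IsKumOf.unique (hn : 0 < n) {y y' : JZero N} {f f' : LaurentSeries Qb}
    (h : IsKumOf N n y f) (h' : IsKumOf N n y' f') (he : KummerEquiv N n f f') : y = y' := by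
  obtain ⟨hf', D', h'⟩ := h'
  obtain ⟨hf'', D'', h''⟩ := h.congr he
  obtain ⟨oo⟩ : Nonempty (Place Qb (FB N)) := RiemannCor_nonempty_place
  rw [← h'.cls_eq oo, ← h''.cls_eq oo, W.IsKum.divisor_unique hn.ne' h'.kum h''.kum]

theorem isKumOf_one : IsKumOf N n (0 : JZero N) 1 :=
  ⟨one_mem _, 0, W.isRep_zero n⟩

theorem IsKumOf.eq_zero (hn : 0 < n) {y : JZero N} {f : LaurentSeries Qb} (h : IsKumOf N n y f)
    (h' : KummerEquiv N n 1 f) : y = 0 :=
  (IsKumOf.unique hn isKumOf_one h h').symm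

/-- transport of a statement on places along an equality of intermediate fields. -/
theorem forall_place_ord_iff {E E' : IntermediateField Qb (LaurentSeries Qb)} (h : E = E')
    (n : ℕ) (f : LaurentSeries Qb) (hf : f ∈ E) (hf' : f ∈ E') :
    (∀ v : Place Qb E, (n : ℤ) ∣ v.ord (⟨f, hf⟩ : E)) ↔
      ∀ v : Place Qb E', (n : ℤ) ∣ v.ord (⟨f, hf'⟩ : E') := by
  subst h
  rfl

/-- [`W.IsKum.ord_eq` + `forall_place_ord_iff (S18.bar_eq_FF N)`.] -/
theorem IsKumOf.isKummer {y : JZero N} {f : LaurentSeries Qb} (h : IsKumOf N n y f) :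
    IsKummer (N := N) n f := by
  obtain ⟨hf, D, h⟩ := h
  refine ⟨fun h0 => h.kum.ne_zero (Subtype.ext h0), mem_FB_iff.1 hf, ?_⟩
  rw [← forall_place_ord_iff (S18.bar_eq_FF N) n f hf]
  intro v
  rw [h.kum.ord_eq]
  exact dvd_mul_right _ _

/-- every Kummer function is the Kummer function of a class.
[`D v := ord_v f / n` (`Finsupp.ofSupportFinite`, or `(divf f).mapRange (· / n)`), `divf f = n • D`, `W.IsKum.degree_eq_zero`.] -/
theorem exists_isKumOf_of_isKummer (hn : 0 < n) {f : LaurentSeries Qb}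
    (h : IsKummer (N := N) n f) : ∃ y : JZero N, IsKumOf N n y f := by
  obtain ⟨hf0, hu, hdvd⟩ := h
  have hf : f ∈ FB N := mem_FB_iff.2 hu
  have hdiv : ∀ v : Place Qb (FB N), (n : ℤ) ∣ v.ord (⟨f, hf⟩ : FB N) :=
    (forall_place_ord_iff (S18.bar_eq_FF N) n f hf hu).2 hdvd
  obtain ⟨oo⟩ : Nonempty (Place Qb (FB N)) := RiemannCor_nonempty_place
  set D : Divisor Qb (FB N) :=
    (divf (K := Qb) (⟨f, hf⟩ : FB N)).mapRange (fun a : ℤ => a / (n : ℤ)) (Int.zero_ediv _) with hD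
  have hk : W.IsKum n (⟨f, hf⟩ : FB N) D := by
    refine ⟨fun h0 => hf0 (congrArg Subtype.val h0), ?_⟩
    ext v
    rw [Finsupp.smul_apply, hD, Finsupp.mapRange_apply, divf_apply, nsmul_eq_mul,
      Int.mul_ediv_cancel' (hdiv v)]
  exact ⟨cls oo D, hf, D, W.isRep_of_cls hn.ne' hk oo rfl⟩

end Fermat.Agent.S19
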