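import Fermat.Agent.GR.B.LatDefs

/-!
# S19-A : `Γ₀(N)` is generated by `Γ₀(N')` and two parabolic elements (`N ∣ N'`)
-/

set_option autoImplicit false

open CongruenceSubgroup
open scoped MatrixGroups

namespace Fermat.Agent.S19

/-- elementary: if `gcd(a, c) = 1` and `M ≠ 0` there is `k` with `gcd(a + k c, M) = 1`.
[take `k` = the product of the primes dividing `M` and not dividing `a`; or induction; or CRT.] -/
theorem exists_isCoprime_add_mul {a c : ℤ} (h : IsCoprime a c) {M : ℤ} (hM : M ≠ 0) :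
    ∃ k : ℤ, IsCoprime (a + k * c) M := by
  classical
  let ps : Finset ℕ := {p ∈ M.natAbs.primeFactors | ¬ (p : ℤ) ∣ a}
  refine ⟨((ps.prod id : ℕ) : ℤ), ?_⟩
  rw [Int.isCoprime_iff_gcd_eq_one]
  apply Nat.coprime_of_dvd
  intro p pp hp hpM
  have hp' : (p : ℤ) ∣ a + ((ps.prod id : ℕ) : ℤ) * c := Int.natCast_dvd.2 hp
  have ppi : Prime (p : ℤ) := Nat.prime_iff_prime_int.1 pp
  by_cases hpa : (p : ℤ) ∣ a
  · have h1 : (p : ℤ) ∣ ((ps.prod id : ℕ) : ℤ) * c := (dvd_add_right hpa).1 hp'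
    rcases ppi.dvd_or_dvd h1 with h2 | h2
    · have h3 : p ∣ ps.prod id := Int.natCast_dvd_natCast.1 h2
      obtain ⟨q, hq, hq'⟩ := (pp.prime.dvd_finsetProd_iff id).1 h3
      rw [Finset.mem_filter, Nat.mem_primeFactors] at hq
      have hpq : p = q := (Nat.prime_dvd_prime_iff_eq pp hq.1.1).1 hq'
      subst hpq
      exact hq.2 hpa
    · exact ppi.not_isUnit (h.isUnit_of_dvd' hpa h2)
  · have pps : p ∈ ps :=
      Finset.mem_filter.2 ⟨Nat.mem_primeFactors.2 ⟨pp, hpM, Int.natAbs_ne_zero.2 hM⟩, hpa⟩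
    have h1 : (p : ℤ) ∣ ((ps.prod id : ℕ) : ℤ) * c :=
      Dvd.dvd.mul_right (Int.natCast_dvd_natCast.2 (Finset.dvd_prod_of_mem id pps)) c
    exact hpa ((dvd_add_left h1).1 hp')

/-- auxiliary: `(1 k; 0 1)`. -/
def Gen_T (N : ℕ) (k : ℤ) : Gamma0 N :=
  ⟨(⟨!![1, k; 0, 1], by simp [Matrix.det_fin_two_of]⟩ : SL(2, ℤ)),
    Gamma0_mem.mpr (by
      change (((0 : ℤ)) : ZMod N) = 0
      simp)⟩

/-- auxiliary: `(1 0; N j, 1)`. -/
def Gen_S (N : ℕ) (j : ℤ) : Gamma0 N :=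
  ⟨(⟨!![1, 0; (N : ℤ) * j, 1], by simp [Matrix.det_fin_two_of]⟩ : SL(2, ℤ)),
    Gamma0_mem.mpr (by
      change (((N : ℤ) * j : ℤ) : ZMod N) = 0
      simp)⟩

theorem Gen_mul_apply (g g' : SL(2, ℤ)) (i j : Fin 2) :
    (g * g') i j = g i 0 * g' 0 j + g i 1 * g' 1 j := by
  rw [Matrix.SpecialLinearGroup.coe_mul, Matrix.mul_apply, Fin.sum_univ_two]

/-- a homomorphism on `Γ₀(N)` which kills the parabolic elements and `Γ₀(N')` is zero.
[`γ = (a b; c d)`, `N ∣ c`. `T = (1 1; 0 1)`, `S = (1 0; N 1)` are in `Γ₀(N)`, of trace `2`. `T^k γ` has first column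
`(a + k c, c)`; choose `k` with `a' = a + k c` prime to `N'` (`exists_isCoprime_add_mul`). `S^j T^k γ` has lower left entry
`c + j N a'`; write `c = N c'`, `N' = N M`; choose `j` with `c' + j a' ≡ 0 mod M`. Then `S^j T^k γ ∈ Γ₀(N')`, so
`0 = φ(S^j T^k γ) = j φ(S) + k φ(T) + φ(γ) = φ(γ)`.] -/
theorem eq_zero_of_kills {N N' : ℕ} [NeZero N'] (hNN' : N ∣ N') {B : Type*} [AddCommGroup B]
    (φ : Additive (Gamma0 N) →+ B) (hk : GR.B.Kills φ)
    (h0 : ∀ γ : Gamma0 N, (γ : SL(2, ℤ)) ∈ Gamma0 N' → φ (Additive.ofMul γ) = 0) : φ = 0 := by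
  refine AddMonoidHom.ext fun γ => ?_
  induction γ using Additive.rec with
  | ofMul γ =>
    rw [AddMonoidHom.zero_apply]
    obtain ⟨M, rfl⟩ := hNN'
    have hNM : (N * M : ℕ) ≠ 0 := NeZero.ne _
    have hdet : (γ : SL(2, ℤ)) 0 0 * (γ : SL(2, ℤ)) 1 1 - (γ : SL(2, ℤ)) 0 1 * (γ : SL(2, ℤ)) 1 0 = 1 := by
      have := (γ : SL(2, ℤ)).det_coe
      rwa [Matrix.det_fin_two] at this
    have hcop : IsCoprime ((γ : SL(2, ℤ)) 0 0) ((γ : SL(2, ℤ)) 1 0) :=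
      ⟨(γ : SL(2, ℤ)) 1 1, -(γ : SL(2, ℤ)) 0 1, by linarith⟩
    obtain ⟨c', hc'⟩ : (N : ℤ) ∣ (γ : SL(2, ℤ)) 1 0 :=
      (ZMod.intCast_zmod_eq_zero_iff_dvd _ _).mp (Gamma0_mem.mp γ.2)
    obtain ⟨k, hkc⟩ := exists_isCoprime_add_mul hcop (M := ((N * M : ℕ) : ℤ)) (by exact_mod_cast hNM)
    have hkM : IsCoprime ((γ : SL(2, ℤ)) 0 0 + k * (γ : SL(2, ℤ)) 1 0) (M : ℤ) := by
      refine hkc.of_isCoprime_of_dvd_right ?_
      push_cast
      exact Dvd.intro_left _ rfl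
    obtain ⟨u, v, huv⟩ := hkM
    have hT : φ (Additive.ofMul (Gen_T N k)) = 0 := by
      apply hk
      right
      simp [Gen_T, Matrix.trace_fin_two_of]
    have hS : φ (Additive.ofMul (Gen_S N (-c' * u))) = 0 := by
      apply hk
      right
      simp [Gen_S, Matrix.trace_fin_two_of]
    have hmem : ((Gen_S N (-c' * u) * (Gen_T N k * γ) : Gamma0 N) : SL(2, ℤ)) ∈ Gamma0 (N * M) := by
      rw [Gamma0_mem, ZMod.intCast_zmod_eq_zero_iff_dvd, Subgroup.coe_mul, Subgroup.coe_mul,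
        Gen_mul_apply, Gen_mul_apply, Gen_mul_apply]
      have s10 : (Gen_S N (-c' * u) : SL(2, ℤ)) 1 0 = (N : ℤ) * (-c' * u) := rfl
      have s11 : (Gen_S N (-c' * u) : SL(2, ℤ)) 1 1 = 1 := rfl
      have t00 : (Gen_T N k : SL(2, ℤ)) 0 0 = 1 := rfl
      have t01 : (Gen_T N k : SL(2, ℤ)) 0 1 = k := rfl
      have t10 : (Gen_T N k : SL(2, ℤ)) 1 0 = 0 := rfl
      have t11 : (Gen_T N k : SL(2, ℤ)) 1 1 = 1 := rfl
      rw [s10, s11, t00, t01, t10, t11]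
      refine ⟨c' * v, ?_⟩
      push_cast
      rw [hc'] at huv ⊢
      linear_combination (-(N : ℤ) * c') * huv
    have h1 := h0 _ hmem
    rw [ofMul_mul, ofMul_mul, map_add, map_add, hS, hT, zero_add, zero_add] at h1
    exact h1

end Fermat.Agent.S19
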