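import Fermat.Agent.S19.A.Top
import Fermat.Agent.S32.Defs

/-!
# S19-A : the export consumed by S32
-/

set_option autoImplicit false
set_option synthInstance.maxHeartbeats 400000

noncomputable section

namespace Fermat.Agent.S19

open ModularCurve AlgebraicCurve

theorem s19Out (A : ValuationSubring Qb) (N : ℕ) [NeZero N] (ℓ : ℕ) [hℓ : Fact ℓ.Prime]
    (hA : A.LiesOverPrime ℓ) (hℓN : ¬ ℓ ∣ N) : S32.S19Out A N ℓ := by
  intro k
  have : NeZero (ℓ ^ k) := ⟨pow_ne_zero k hℓ.out.ne_zero⟩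
  obtain ⟨N', _, e, he, hCH⟩ := exists_pairing_tors A N ℓ hA hℓN (ℓ ^ k)
  refine ⟨Tors N ((ℓ ^ k : ℕ) : ℤ), inferInstance, inferInstance,
    (Submodule.torsionBy ℤ (JZero N) ((ℓ ^ k : ℕ) : ℤ)).subtype.toAddMonoidHom,
    finite_tors N (ℓ ^ k), fun z hz => ⟨Tors.mk z hz, rfl⟩, fun σ x => rfl,
    ⟨Tors N' ((ℓ ^ k : ℕ) : ℤ), inferInstance, inferInstance, finite_tors N' (ℓ ^ k),
      finLevel_tors N' (ℓ ^ k), e, he, hCH⟩⟩

end Fermat.Agent.S19
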